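import Fermat.Agent.Row27.SpecTheory.Place

/-!
# Specialisation of divisor classes: `specTheory`
-/

set_option autoImplicit false

noncomputable section

open AlgebraicCurve Module
open Fermat.Agent.MWJ0

namespace Fermat.Agent.Row27

universe u

variable {K : Type u} [Field K] (C : CurveData K)

namespace CurveData

variable {L : Type u} [Field L] [Algebra K L] [IsAlgClosed L]

lemma cls_divisor {f : C.curve L} (hf : f ≠ 0) : C.cls L ((C.rr L).divisor hf) = 0 := by
  rw [← map_zero (C.cls L)]
  exact C.cls_eq_of_principal hf fun v => by rw [sub_zero, (C.rr L).divisor_apply hf]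

/-- Membership in `W` is detected by products into a larger level. -/
lemma mem_W_iff_mulv {b c : ℕ} (hc : 2 * C.g < c) {D : Divisor L (C.curve L)} (_hD : 0 ≤ D)
    (x : C.Idx b → L) :
    x ∈ C.W L b D ↔ ∀ j, C.mulv b c (b + c) x (Pi.single j 1) ∈ C.W L (b + c) D := by
  classical
  constructor
  · intro hx j
    have := C.mulv_mem_W rfl hx
      (show Pi.single j (1 : L) ∈ C.W L c 0 by rw [C.W_zero]; exact Submodule.mem_top)
    rwa [add_zero] at this
  · intro h
    have hall : ∀ y, C.mulv b c (b + c) x y ∈ C.W L (b + c) D := by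
      intro y
      have hy : y = ∑ j, y j • (Pi.single j (1 : L) : C.Idx c → L) := by
        rw [← Finset.univ_sum_single y]
        refine Finset.sum_congr rfl fun j _ => ?_
        funext k
        by_cases hk : k = j
        · subst hk; simp
        · simp [hk]
      rw [← C.mulvLin_apply le_rfl, hy, map_sum]
      exact Submodule.sum_mem _ fun j _ => by
        rw [map_smul]; exact Submodule.smul_mem _ _ (h j)
    rw [mem_W, mem_Lsp]
    intro v
    rcases eq_or_ne (C.realF L b x) 0 with h0 | h0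
    · exact Or.inl h0
    right
    obtain ⟨g, hg, hgv⟩ : ∃ g ∈ riemannRochSpace (C.binf L (c : ℤ)),
        g ∉ riemannRochSpace (C.binf L (c : ℤ) - Finsupp.single v 1) :=
      SetLike.not_le_iff_exists.1 ((C.rr L).Lsp_sub_single_ne _ v
        (by rw [C.rr_g, C.deg_binf]; omega))
    obtain ⟨y, rfl⟩ := C.exists_realF_eq hg
    have hg0 : C.realF L c y ≠ 0 := fun e => hgv (by rw [e]; exact zero_mem _)
    have h1 := (mem_Lsp_of_ne_zero hg0).1 hg
    have h2 : (C.realF L c y) ∈ riemannRochSpace (C.binf L (c : ℤ)) := hg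
    have h3 : v.ord (C.realF L c y) ≤ -C.binf L (c : ℤ) v := by
      by_contra hlt
      refine hgv ((mem_Lsp_of_ne_zero hg0).2 fun u => ?_)
      rw [Finsupp.sub_apply]
      rcases eq_or_ne u v with rfl | hu
      · rw [Finsupp.single_eq_same]; omega
      · rw [Finsupp.single_eq_of_ne hu, sub_zero]; exact h1 u
    have h4 := hall y
    rw [mem_W, C.realF_mulv le_rfl, mem_Lsp_of_ne_zero (mul_ne_zero h0 hg0)] at h4
    have h5 := h4 v
    rw [v.ord_mul h0 hg0] at h5
    have e : C.binf L ((b + c : ℕ) : ℤ) v = C.binf L (b : ℤ) v + C.binf L (c : ℤ) v := by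
      simp [binf]
    rw [Finsupp.sub_apply, e] at h5
    rw [Finsupp.sub_apply]
    omega

end CurveData

variable {L L' : Type u} [Field L] [Algebra K L] [IsAlgClosed L] [Field L'] [Algebra K L']
  [IsAlgClosed L']

lemma mapSub_W_algHom (ψ : L →ₐ[K] L') {D : Divisor L (C.curve L)} (hD : 0 ≤ D) (b : ℕ) :
    (Spec.ofAlgHom ψ).mapSub (C.W L b D) =
      C.W L' b (Finsupp.mapDomain (specPlace C (Spec.ofAlgHom ψ)) D) := by
  classical
  obtain ⟨d, hd⟩ := Int.eq_ofNat_of_zero_le ((C.rr L).degree_nonneg hD)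
  set c := 2 * C.g + d + 1 with hc
  have hi := isImg_mapDomain C (Spec.ofAlgHom ψ) hD
  have hU := hi.2.2 (b + c) (by omega)
  set D' := Finsupp.mapDomain (specPlace C (Spec.ofAlgHom ψ)) D
  let : Algebra L L' := (ψ : L →+* L').toAlgebra
  have hsmul : ∀ (a : L) (z : L'), a • z = ψ a * z := fun a z => rfl
  have hconst : ∀ k : K, algebraMap K L' k = ψ (algebraMap K L k) := fun k => (ψ.commutes k).symm
  have hmul : ∀ (π : L' →ₗ[L] L) (x : C.Idx b → L') (j : Fin (C.dim c)) (l : Fin (C.dim (b + c))),
      π (C.mulv b c (b + c) x (Pi.single j 1) l) =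
        C.mulv b c (b + c) (fun i => π (x i)) (Pi.single j 1) l := by
    intro π x j l
    simp only [CurveData.mulv, mulVec, map_sum]
    refine Finset.sum_congr rfl fun i _ => Finset.sum_congr rfl fun k _ => ?_
    simp only [Algebra.smul_def]
    rw [show algebraMap K L' (C.sc b c (b + c) i k l) * (x i * Pi.single (M := fun _ => L') j 1 k) =
      (algebraMap K L (C.sc b c (b + c) i k l) * Pi.single (M := fun _ => L) j 1 k) • x i from ?_,
      map_smul, smul_eq_mul]
    · ring
    · rw [hsmul, map_mul, ← hconst]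
      by_cases hk : k = j
      · subst hk; simp
      · simp [hk]
  have hproj : ∀ (π : L' →ₗ[L] L) (y : C.Idx (b + c) → L'),
      y ∈ (Spec.ofAlgHom ψ).mapSub (C.W L (b + c) D) → ∀ t : L',
        (fun l => π (t * y l)) ∈ C.W L (b + c) D := by
    intro π y hy
    induction hy using Submodule.span_induction with
    | mem y hy =>
      obtain ⟨u, hu, rfl⟩ := hy
      intro t
      have e : (fun l => π (t * (Spec.ofAlgHom ψ).map (u l))) = π t • fun l => (u l : L) := by
        funext l
        have : t * ψ (u l : L) = (u l : L) • t := by rw [hsmul, mul_comm]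
        show π (t * ψ (u l : L)) = π t * (u l : L)
        rw [this, map_smul, smul_eq_mul, mul_comm]
      rw [e]
      exact Submodule.smul_mem _ _ hu
    | zero =>
      intro t
      have e : (fun l => π (t * (0 : C.Idx (b + c) → L') l)) = 0 := funext fun l => by simp
      rw [e]; exact zero_mem _
    | add y z _ _ hy hz =>
      intro t
      have e : (fun l => π (t * (y + z) l)) = (fun l => π (t * y l)) + fun l => π (t * z l) :=
        funext fun l => by simp [mul_add]
      rw [e]; exact add_mem (hy t) (hz t)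
    | smul a y _ hy =>
      intro t
      simpa [mul_assoc] using hy (t * a)
  refine le_antisymm ((Spec.ofAlgHom ψ).mapSub_le fun x hx => ?_) fun x hx => ?_
  · rw [C.mem_W_iff_mulv (c := c) (by omega) hi.1]
    intro j
    rw [← hU]
    refine C.mulv_mem_mapSub _ le_rfl (Wb := ⊤) (fun u hu y _ => ?_)
      ((Spec.ofAlgHom ψ).mem_mapSub_of_mem x hx)
      (by rw [(Spec.ofAlgHom ψ).mapSub_top]; exact Submodule.mem_top)
    have := C.mulv_mem_W rfl hu (show y ∈ C.W L c 0 by rw [C.W_zero]; exact Submodule.mem_top)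
    rwa [add_zero] at this
  · have key : ∀ π : L' →ₗ[L] L, (fun i => π (x i)) ∈ C.W L b D := by
      intro π
      rw [C.mem_W_iff_mulv (c := c) (by omega) hD]
      intro j
      have h := (C.mem_W_iff_mulv (c := c) (by omega) hi.1 x).1 hx j
      rw [← hU] at h
      have h' := hproj π _ h 1
      simp only [one_mul, hmul] at h'
      exact h'
    let β := Module.Basis.ofVectorSpace L L'
    let s := Finset.univ.biUnion fun i => (β.repr (x i)).support
    have e : x = ∑ k ∈ s, β k • fun i => ψ (β.repr (x i) k) := by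
      funext i
      conv_lhs => rw [← β.linearCombination_repr (x i), Finsupp.linearCombination_apply]
      rw [Finsupp.sum_of_support_subset _
        (Finset.subset_biUnion_of_mem (fun i => (β.repr (x i)).support) (Finset.mem_univ i))
        (fun k a => a • β k) (fun k _ => zero_smul L _), Finset.sum_apply]
      exact Finset.sum_congr rfl fun k _ => by
        rw [hsmul, Pi.smul_apply, smul_eq_mul, mul_comm]
    rw [e]
    exact Submodule.sum_mem _ fun k _ =>
      Submodule.smul_mem _ _ (mem_mapSub_ofAlgHom ψ (key (β.coord k)))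

variable (φ : Spec K L L')

/-- The specialisation of divisors. -/
def specDiv : Divisor L (C.curve L) →+ Divisor L' (C.curve L') :=
  Finsupp.mapDomain.addMonoidHom (specPlace C φ)

lemma specDiv_apply (D : Divisor L (C.curve L)) :
    specDiv C φ D = Finsupp.mapDomain (specPlace C φ) D := rfl

/-- The specialisation of the zero divisor of a function of level `b`. -/
lemma cls_specDiv_divisor {b : ℕ} {u : C.curve L} (hu : u ≠ 0)
    (hub : u ∈ riemannRochSpace (C.binf L (b : ℤ))) :
    C.cls L' (specDiv C φ ((C.rr L).divisor hu + C.binf L (b : ℤ))) = 0 := by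
  obtain ⟨x₀, rfl⟩ := C.exists_realF_eq hub
  have hx₀ : x₀ ≠ 0 := fun e => hu (by rw [e, map_zero])
  obtain ⟨i, hi, hint⟩ := φ.exists_integral_scale hx₀
  let x : C.Idx b → φ.dom := fun j => ⟨x₀ j / x₀ i, hint j⟩
  let x' : C.Idx b → L' := fun j => φ.map (x j)
  have hx' : x' ≠ 0 := fun e => one_ne_zero (α := L') (by
    rw [← map_one φ.map]
    have : x i = 1 := Subtype.ext (div_self hi)
    rw [← this]; exact congrFun e i)
  have hu' : C.realF L' b x' ≠ 0 := fun e =>
    hx' (C.realF_injective L' b (e.trans (map_zero _).symm))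
  obtain ⟨hG, hGd⟩ := (C.rr L).section_divisor hu hub
  obtain ⟨hG', hGd'⟩ := (C.rr L').section_divisor hu' (C.realF_mem b x')
  rw [C.deg_binf] at hGd hGd'
  set G := (C.rr L).divisor hu + C.binf L (b : ℤ) with hGdef
  set G' := (C.rr L').divisor hu' + C.binf L' (b : ℤ) with hGdef'
  have hi := isImg_mapDomain C φ hG
  set c := 2 * C.g + 1 with hc
  have hS := hi.2.2 (b + c) (by rw [hGd]; omega)
  have hxG : (fun j => (x j : L)) ∈ C.W L b G := by
    rw [CurveData.mem_W, show (fun j => (x j : L)) = (x₀ i)⁻¹ • x₀ from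
      funext fun j => div_eq_inv_mul _ _, map_smul]
    refine Submodule.smul_mem _ _ ((mem_Lsp_of_ne_zero hu).2 fun v => ?_)
    rw [hGdef, Finsupp.sub_apply, Finsupp.add_apply, (C.rr L).divisor_apply hu]
    omega
  have hxG' : x' ∈ C.W L' b G' := by
    rw [CurveData.mem_W, mem_Lsp_of_ne_zero hu']
    intro v
    rw [hGdef', Finsupp.sub_apply, Finsupp.add_apply, (C.rr L').divisor_apply hu']
    omega
  let T := C.mulvLin (L := L') (a := b) (b := c) (c := b + c) le_rfl x'
  have hT : Function.Injective T := by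
    refine (injective_iff_map_eq_zero T).2 fun y hy => C.realF_injective L' c ?_
    have h := congrArg (C.realF L' (b + c)) hy
    rw [C.mulvLin_apply, C.realF_mulv le_rfl, map_zero] at h
    rw [map_zero]
    exact (mul_eq_zero.1 h).resolve_left hu'
  have hr : finrank L' (LinearMap.range T) = c + 1 - C.g := by
    have h1 := LinearMap.finrank_range_of_inj hT
    have h2 := C.finrank_W (L := L') (b := c) (D := 0) le_rfl (m := 0) (by simp) (by omega)
    rw [C.W_zero, finrank_top] at h2
    omega
  have hr1 : LinearMap.range T = C.W L' (b + c) G' := by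
    refine Submodule.eq_of_le_of_finrank_eq ?_ ?_
    · rintro _ ⟨y, rfl⟩
      have := C.mulv_mem_W rfl hxG'
        (show y ∈ C.W L' c 0 by rw [C.W_zero]; exact Submodule.mem_top)
      rwa [add_zero] at this
    · rw [hr, C.finrank_W hG' hGd' (by omega)]; omega
  have hr2 : LinearMap.range T = C.W L' (b + c) (Finsupp.mapDomain (specPlace C φ) G) := by
    refine Submodule.eq_of_le_of_finrank_eq ?_ ?_
    · rintro _ ⟨y, rfl⟩
      rw [← hS]
      refine C.mulv_mem_mapSub φ le_rfl (Wb := ⊤) (fun a ha z _ => ?_)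
        (φ.mem_mapSub_of_mem x hxG) (by rw [φ.mapSub_top]; exact Submodule.mem_top)
      have := C.mulv_mem_W rfl ha (show z ∈ C.W L c 0 by rw [C.W_zero]; exact Submodule.mem_top)
      rwa [add_zero] at this
    · rw [hr, C.finrank_W hi.1 (hi.2.1.trans hGd) (by omega)]; omega
  have hE : Finsupp.mapDomain (specPlace C φ) G = G' :=
    C.W_injective hi.1 hG' ((hi.2.1.trans hGd).trans hGd'.symm) (b := b + c)
      (by rw [hi.2.1, hGd]; omega) (hr2.symm.trans hr1)
  rw [specDiv_apply, hE, hGdef', map_add, C.cls_binf, add_zero, C.cls_divisor hu']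

lemma cls_specDiv_of_principal {D : Divisor L (C.curve L)}
    (hD : D ∈ Divisor.principal (K := L) (F := C.curve L)) :
    C.cls L' (specDiv C φ D) = 0 := by
  obtain ⟨f, hf, hDf⟩ := hD
  have hpp : ∀ v, 0 ≤ (D ⊔ 0 : Divisor L (C.curve L)) v := fun v => by simp
  have hp : (0 : Divisor L (C.curve L)) ≤ D ⊔ 0 := le_sup_right
  obtain ⟨d, hd⟩ := Int.eq_ofNat_of_zero_le ((C.rr L).degree_nonneg hp)
  set b := 2 * C.g + d + 1 with hb
  have := (C.rr L).finite (C.binf L (b : ℤ) - (D ⊔ 0))
  have hne : riemannRochSpace (C.binf L (b : ℤ) - (D ⊔ 0)) ≠ ⊥ := fun e => by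
    have h := (C.rr L).dim_eq (C.binf L (b : ℤ) - (D ⊔ 0))
      (by rw [C.rr_g, map_sub, C.deg_binf, hd]; omega)
    rw [e, finrank_bot, C.rr_g, map_sub, C.deg_binf, hd] at h
    omega
  obtain ⟨u, huD, hu0⟩ := (Submodule.ne_bot_iff _).1 hne
  have hu := (mem_Lsp_of_ne_zero hu0).1 huD
  have hu1 : u ∈ riemannRochSpace (C.binf L (b : ℤ)) := C.Lsp_le_binf hp huD
  have hw : u * f⁻¹ ≠ 0 := mul_ne_zero hu0 (inv_ne_zero hf)
  have hordw : ∀ v, v.ord (u * f⁻¹) = v.ord u - D v := fun v => by
    rw [v.ord_mul hu0 (inv_ne_zero hf), v.ord_inv, hDf v]; ring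
  have hw1 : u * f⁻¹ ∈ riemannRochSpace (C.binf L (b : ℤ)) := by
    rw [mem_Lsp_of_ne_zero hw]
    intro v
    have h := hu v
    rw [Finsupp.sub_apply, Finsupp.sup_apply, Finsupp.zero_apply] at h
    rw [hordw]
    omega
  have hdiv : D = ((C.rr L).divisor hu0 + C.binf L (b : ℤ)) -
      ((C.rr L).divisor hw + C.binf L (b : ℤ)) := by
    ext v
    simp only [Finsupp.sub_apply, Finsupp.add_apply, (C.rr L).divisor_apply, hordw]
    ring
  rw [hdiv, map_sub, map_sub, cls_specDiv_divisor C φ hu0 hu1, cls_specDiv_divisor C φ hw hw1,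
    sub_zero]

/-- The specialisation of classes. -/
def specPic : Pic0 L (C.curve L) →+ Pic0 L' (C.curve L') :=
  QuotientAddGroup.lift _
    ((C.cls L').comp ((specDiv C φ).comp (Divisor.degZero (K := L) (F := C.curve L)).subtype))
    fun _ hD => cls_specDiv_of_principal C φ (AddSubgroup.mem_addSubgroupOf.1 hD)

lemma specPic_cls (D : Divisor L (C.curve L)) :
    specPic C φ (C.cls L D) = C.cls L' (Finsupp.mapDomain (specPlace C φ) D) := by
  show C.cls L' (specDiv C φ (D - C.binf L (Divisor.degree D))) = _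
  rw [map_sub, map_sub, specDiv_apply, specDiv_apply, CurveData.binf, Finsupp.mapDomain_single,
    specPlace_inf]
  rw [show C.cls L' (Finsupp.single (C.inf L') (Divisor.degree D)) = 0 from C.cls_binf _, sub_zero]

lemma specPlace_algHom_injective (ψ : L →ₐ[K] L') :
    Function.Injective (specPlace C (Spec.ofAlgHom ψ)) := by
  intro P Q h
  by_contra hPQ
  set b := 2 * C.g + 2
  set φ := Spec.ofAlgHom ψ
  have hP := isImg_specPlace C φ P
  have hQ := isImg_specPlace C φ Q
  have eP := hP.2.2 b (by rw [(C.rr L).degree_single]; omega)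
  have eQ := hQ.2.2 b (by rw [(C.rr L).degree_single]; omega)
  have hsup : φ.mapSub (C.W L b (Finsupp.single P 1) ⊔ C.W L b (Finsupp.single Q 1)) ≤
      φ.mapSub (C.W L b (Finsupp.single P 1)) := by
    refine φ.mapSub_le fun x hx => ?_
    obtain ⟨y, hy, z, hz, hyz⟩ := Submodule.mem_sup.1 hx
    have e : (fun i => φ.map (x i)) = (fun i => ψ (y i)) + fun i => ψ (z i) := by
      funext i
      show ψ (x i : L) = ψ (y i) + ψ (z i)
      rw [← map_add, ← Pi.add_apply, hyz]
    rw [e]
    refine add_mem (mem_mapSub_ofAlgHom ψ hy) ?_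
    rw [eP, h, ← eQ]
    exact mem_mapSub_ofAlgHom ψ hz
  have hle := Submodule.finrank_mono hsup
  rw [φ.finrank_mapSub, φ.finrank_mapSub] at hle
  have he : C.W L b (Finsupp.single P 1) =
      C.W L b (Finsupp.single P 1) ⊔ C.W L b (Finsupp.single Q 1) :=
    Submodule.eq_of_le_of_finrank_le le_sup_left hle
  have hQP : C.W L b (Finsupp.single Q 1) ≤ C.W L b (Finsupp.single P 1) :=
    le_sup_right.trans he.ge
  refine hPQ (Finsupp.single_left_injective one_ne_zero (C.W_injective
    (Finsupp.single_nonneg.2 zero_le_one) (Finsupp.single_nonneg.2 zero_le_one)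
    (by rw [(C.rr L).degree_single, (C.rr L).degree_single])
    (by rw [(C.rr L).degree_single]; omega)
    (Submodule.eq_of_le_of_finrank_eq hQP ?_).symm))
  rw [finrank_W_single C Q (b := b) (by omega), finrank_W_single C P (b := b) (by omega)]

lemma specPic_algHom_injective (ψ : L →ₐ[K] L') :
    Function.Injective (specPic C (Spec.ofAlgHom ψ)) := by
  rw [injective_iff_map_eq_zero]
  intro z hz
  set φ := Spec.ofAlgHom ψ
  obtain ⟨E, hE, hEd, rfl, -⟩ := C.exists_rep z ∅
  rw [specPic_cls] at hz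
  have hi := isImg_mapDomain C φ hE
  set E' := Finsupp.mapDomain (specPlace C φ) E
  have hEd' : Divisor.degree E' = C.n := hi.2.1.trans hEd
  obtain ⟨r, hr, hrv⟩ := C.exists_fun_of_cls_eq (D := E') (E := C.binf L' (C.n : ℤ))
    (hEd'.trans (C.deg_binf _).symm) (hz.trans (C.cls_binf _).symm)
  have hne : C.W L' C.n E' ≠ ⊥ := by
    have hmem : r ∈ riemannRochSpace (C.binf L' (C.n : ℤ) - E') := by
      rw [mem_Lsp_of_ne_zero hr]
      intro v
      rw [← hrv v, Finsupp.sub_apply, Finsupp.sub_apply]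
      omega
    intro e
    rw [← C.map_W hi.1, e, Submodule.map_bot, Submodule.mem_bot] at hmem
    exact hr hmem
  rw [← mapSub_W_algHom C ψ hE C.n] at hne
  obtain ⟨x, hx, hx0⟩ := (Submodule.ne_bot_iff (C.W L C.n E)).1 fun e => hne (by rw [e, φ.mapSub_bot])
  have hf : C.realF L C.n x ≠ 0 := fun e => hx0 (C.realF_injective L _ (e.trans (map_zero _).symm))
  have hdeg : Divisor.degree (C.binf L (C.n : ℤ) - E) = 0 := by
    rw [map_sub, C.deg_binf, hEd, sub_self]
  obtain ⟨h1, h2⟩ := (C.rr L).section_divisor hf hx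
  have h3 := (C.rr L).eq_zero_of_nonneg_of_degree_le h1 (h2.trans hdeg).le
  have h4 := congrArg (C.cls L) h3
  rw [map_add, C.cls_divisor hf, zero_add, map_zero, map_sub, C.cls_binf, zero_sub, neg_eq_zero]
    at h4
  exact h4

variable {L'' : Type u} [Field L''] [Algebra K L''] [IsAlgClosed L'']

lemma specPlace_comp (ψ : L →ₐ[K] L') (φ : Spec K L' L'') (χ : L →ₐ[K] L'')
    (h : ∀ l, ψ l ∈ φ.dom) (hχ : ∀ l, φ.map ⟨ψ l, h l⟩ = χ l) (P : Place L (C.curve L)) :
    specPlace C φ (specPlace C (Spec.ofAlgHom ψ) P) = specPlace C (Spec.ofAlgHom χ) P := by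
  set b := 2 * C.g + 2
  set P' := specPlace C (Spec.ofAlgHom ψ) P
  have e1 := (isImg_specPlace C (Spec.ofAlgHom ψ) P).2.2 b
    (by rw [(C.rr L).degree_single]; omega)
  have e2 := (isImg_specPlace C φ P').2.2 b (by rw [(C.rr L').degree_single]; omega)
  refine (specPlace_eq C (Spec.ofAlgHom χ) (b := b) (by omega)
    ((Spec.ofAlgHom χ).eq_of_le_mapSub ?_ ?_)).symm
  · refine (Spec.ofAlgHom χ).mapSub_le fun x hx => ?_
    rw [← e2]
    have h1 : (fun i => ψ (x i : L)) ∈ C.W L' b (Finsupp.single P' 1) :=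
      e1 ▸ mem_mapSub_ofAlgHom ψ hx
    have h2 := φ.mem_mapSub_of_mem (fun i => ⟨ψ (x i : L), h _⟩) h1
    simp only [hχ] at h2
    exact h2
  · rw [finrank_W_single C _ (b := b) (by omega), finrank_W_single C P (b := b) (by omega)]

omit [IsAlgClosed L] in
lemma mapSub_id {ι : Type*} (W : Submodule L (ι → L)) :
    (Spec.ofAlgHom (AlgHom.id K L)).mapSub W = W :=
  le_antisymm ((Spec.ofAlgHom _).mapSub_le fun _ hx => hx)
    fun _ hx => mem_mapSub_ofAlgHom (AlgHom.id K L) hx

/-- The theory of specialisation of a curve. -/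
def specTheory (C : CurveData K) : SpecTheory C where
  place φ := specPlace C φ
  pic φ := specPic C φ
  place_inf φ := specPlace_inf C φ
  place_pt φ i := specPlace_pt C φ i
  mapSub_W φ _ hD _ hb := mapSub_W_eq C φ hD hb
  mapSub_W_of_algHom ψ _ hD b := mapSub_W_algHom C ψ hD b
  place_comp ψ φ χ h hχ P := specPlace_comp C ψ φ χ h hχ P
  place_id {L} _ _ _ P := specPlace_eq C _ (b := 2 * C.g + 2) (by omega) (mapSub_id _)
  place_injective ψ := specPlace_algHom_injective C ψ
  pic_cls φ D := specPic_cls C φ D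
  pic_injective ψ := specPic_algHom_injective C ψ

end Fermat.Agent.Row27

end
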