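import Fermat.Agent.Row27.Interface
import Mathlib.LinearAlgebra.FiniteDimensional.Lemmas
import Mathlib.LinearAlgebra.Dimension.Constructions

/-!
# Images of subspaces under specialisations
-/

set_option autoImplicit false

noncomputable section

open Module

namespace Fermat.Agent.Row27

universe u

variable {K : Type u} [Field K] {L L' : Type u} [Field L] [Algebra K L] [Field L'] [Algebra K L']
variable {ι : Type*}

namespace Spec

variable (φ : Spec K L L')

lemma mem_mapSub_of_mem {W : Submodule L (ι → L)} (x : ι → φ.dom)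
    (h : (fun i => (x i : L)) ∈ W) : (fun i => φ.map (x i)) ∈ φ.mapSub W :=
  Submodule.subset_span ⟨x, h, rfl⟩

lemma mapSub_le {W : Submodule L (ι → L)} {V : Submodule L' (ι → L')}
    (h : ∀ x : ι → φ.dom, (fun i => (x i : L)) ∈ W → (fun i => φ.map (x i)) ∈ V) :
    φ.mapSub W ≤ V := by
  refine Submodule.span_le.2 ?_
  rintro _ ⟨x, hx, rfl⟩
  exact h x hx

lemma mapSub_mono {W W' : Submodule L (ι → L)} (h : W ≤ W') : φ.mapSub W ≤ φ.mapSub W' :=
  φ.mapSub_le fun x hx => φ.mem_mapSub_of_mem x (h hx)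

lemma mapSub_bot : φ.mapSub (⊥ : Submodule L (ι → L)) = ⊥ := by
  refine le_bot_iff.1 (φ.mapSub_le fun x hx => ?_)
  rw [Submodule.mem_bot] at hx
  have h : ∀ i, x i = 0 := fun i => Subtype.ext (congrFun hx i)
  simp [h, funext_iff]

lemma exists_integral_scale [Finite ι] {x : ι → L} (hx : x ≠ 0) :
    ∃ i, x i ≠ 0 ∧ ∀ j, x j / x i ∈ φ.dom := by
  have := Fintype.ofFinite ι
  obtain ⟨k, hk⟩ := Function.ne_iff.1 hx
  have : Nonempty ι := ⟨k⟩
  obtain ⟨i, hi⟩ := exists_vmax_eq φ.dom x
  have hi0 : x i ≠ 0 := fun h => by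
    have := le_vmax φ.dom x k
    rw [hi, h, map_zero, le_zero_iff, Valuation.zero_iff] at this
    exact hk this
  exact ⟨i, hi0, fun j => (valuation_le_iff_div_mem _ hi0).1 (hi ▸ le_vmax φ.dom x j)⟩

lemma finrank_mapSub [Finite ι] (W : Submodule L (ι → L)) :
    finrank L' (φ.mapSub W) = finrank L W := by
  induction h : finrank L W generalizing W with
  | zero => rw [Submodule.finrank_eq_zero.1 h, φ.mapSub_bot, finrank_bot]
  | succ n ih =>
    have hne : W ≠ ⊥ := fun e => by rw [e, finrank_bot] at h; omega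
    obtain ⟨x, hxW, hx⟩ := (Submodule.ne_bot_iff W).1 hne
    obtain ⟨i, hi, hint⟩ := φ.exists_integral_scale hx
    let w : ι → φ.dom := fun j => ⟨x j / x i, hint j⟩
    have hwW : (fun j => (w j : L)) ∈ W := by
      have e : (fun j => (w j : L)) = (x i)⁻¹ • x := funext fun j => div_eq_inv_mul _ _
      rw [e]; exact W.smul_mem _ hxW
    have hwi : w i = 1 := Subtype.ext (div_self hi)
    have hwi' : ((w i : φ.dom) : L) = 1 := by rw [hwi]; rfl
    let W₀ := W ⊓ LinearMap.ker (LinearMap.proj i : (ι → L) →ₗ[L] L)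
    let v : ι → L := fun j => (w j : L)
    have hv0 : v ≠ 0 := fun e => one_ne_zero (hwi'.symm.trans (congrFun e i))
    have hW : W = Submodule.span L {v} ⊔ W₀ := by
      refine le_antisymm (fun y hy => ?_)
        (sup_le ((Submodule.span_singleton_le_iff_mem _ _).2 hwW) inf_le_left)
      refine Submodule.mem_sup.2 ⟨y i • v, Submodule.smul_mem _ _
        (Submodule.mem_span_singleton_self _), y - y i • v, ⟨W.sub_mem hy (W.smul_mem _ hwW), ?_⟩,
        add_sub_cancel _ _⟩
      show y i - y i * v i = 0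
      rw [show v i = 1 from hwi', mul_one, sub_self]
    have hdisj : Submodule.span L {v} ⊓ W₀ = ⊥ := by
      refine (Submodule.eq_bot_iff _).2 ?_
      rintro y ⟨hy, -, hy0⟩
      obtain ⟨c, rfl⟩ := Submodule.mem_span_singleton.1 hy
      have hy0' : c * v i = 0 := hy0
      rw [show v i = 1 from hwi', mul_one] at hy0'
      rw [hy0', zero_smul]
    have hr := Submodule.finrank_sup_add_finrank_inf_eq (Submodule.span L {v}) W₀
    rw [← hW, hdisj, finrank_bot, finrank_span_singleton hv0, h] at hr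
    have hih := ih W₀ (by omega)
    let v' : ι → L' := fun j => φ.map (w j)
    have hv'i : v' i = 1 := by simp [v', hwi]
    have hv'0 : v' ≠ 0 := fun e => one_ne_zero (hv'i.symm.trans (congrFun e i))
    have hmap : φ.mapSub W = Submodule.span L' {v'} ⊔ φ.mapSub W₀ := by
      refine le_antisymm (φ.mapSub_le fun y hy => ?_)
        (sup_le ((Submodule.span_singleton_le_iff_mem _ _).2 (φ.mem_mapSub_of_mem w hwW))
          (φ.mapSub_mono inf_le_left))
      refine Submodule.mem_sup.2 ⟨φ.map (y i) • v', Submodule.smul_mem _ _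
        (Submodule.mem_span_singleton_self _), fun j => φ.map (y j - y i * w j),
        φ.mem_mapSub_of_mem _ ⟨?_, ?_⟩, ?_⟩
      · have e : (fun j => ((y j - y i * w j : φ.dom) : L)) =
            (fun j => (y j : L)) - (y i : L) • v := by
          funext j; simp [v]
        rw [e]
        exact W.sub_mem hy (W.smul_mem _ hwW)
      · show ((y i - y i * w i : φ.dom) : L) = 0
        rw [hwi, mul_one, sub_self]; rfl
      · funext j; simp [v']
    have hker : φ.mapSub W₀ ≤ LinearMap.ker (LinearMap.proj i : (ι → L') →ₗ[L'] L') :=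
      φ.mapSub_le fun y hy => by
        have h0 : (y i : L) = 0 := hy.2
        show φ.map (y i) = 0
        rw [show y i = 0 from Subtype.ext h0, map_zero]
    have hdisj' : Submodule.span L' {v'} ⊓ φ.mapSub W₀ = ⊥ := by
      refine (Submodule.eq_bot_iff _).2 ?_
      rintro y ⟨hy, hy0⟩
      obtain ⟨c, rfl⟩ := Submodule.mem_span_singleton.1 hy
      have hy0' : c * v' i = 0 := hker hy0
      rw [hv'i, mul_one] at hy0'
      rw [hy0', zero_smul]
    have hr' := Submodule.finrank_sup_add_finrank_inf_eq (Submodule.span L' {v'}) (φ.mapSub W₀)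
    rw [← hmap, hdisj', finrank_bot, finrank_span_singleton hv'0, hih] at hr'
    omega

lemma mapSub_top [Finite ι] : φ.mapSub (⊤ : Submodule L (ι → L)) = ⊤ := by
  have := Fintype.ofFinite ι
  refine Submodule.eq_top_of_finrank_eq ?_
  rw [φ.finrank_mapSub, finrank_top, finrank_pi, finrank_pi]

lemma eq_of_le_mapSub [Finite ι] {W : Submodule L (ι → L)} {V : Submodule L' (ι → L')}
    (h : φ.mapSub W ≤ V) (hd : finrank L' V = finrank L W) : φ.mapSub W = V :=
  Submodule.eq_of_le_of_finrank_eq h ((φ.finrank_mapSub W).trans hd.symm)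

lemma eq_of_ge_mapSub [Finite ι] {W : Submodule L (ι → L)} {V : Submodule L' (ι → L')}
    (h : V ≤ φ.mapSub W) (hd : finrank L' V = finrank L W) : φ.mapSub W = V :=
  (Submodule.eq_of_le_of_finrank_eq h (hd.trans (φ.finrank_mapSub W).symm)).symm

/-- Products of integral vectors specialise. -/
lemma exists_mulVec {p q r : ℕ} (sc : Fin p → Fin q → Fin r → K) (x : Fin p → φ.dom)
    (y : Fin q → φ.dom) : ∃ z : Fin r → φ.dom,
      (fun l => (z l : L)) = mulVec sc (fun i => (x i : L)) (fun j => (y j : L)) ∧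
      (fun l => φ.map (z l)) = mulVec sc (fun i => φ.map (x i)) (fun j => φ.map (y j)) := by
  refine ⟨fun l => ∑ i, ∑ j, ⟨algebraMap K L (sc i j l), φ.trivOn _⟩ * (x i * y j),
    funext fun l => ?_, funext fun l => ?_⟩
  · simp [mulVec, Algebra.smul_def]
  · simp [mulVec, Algebra.smul_def, map_sum, φ.map_algebraMap]

lemma exists_const {p : ℕ} (c : Fin p → K) : ∃ z : Fin p → φ.dom,
    (fun i => (z i : L)) = (fun i => algebraMap K L (c i)) ∧
      (fun i => φ.map (z i)) = fun i => algebraMap K L' (c i) :=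
  ⟨fun i => ⟨algebraMap K L (c i), φ.trivOn _⟩, rfl, funext fun _ => φ.map_algebraMap _⟩

end Spec

/-- For an embedding every vector is integral. -/
lemma mem_mapSub_ofAlgHom (ψ : L →ₐ[K] L') {W : Submodule L (ι → L)} {x : ι → L} (h : x ∈ W) :
    (fun i => ψ (x i)) ∈ (Spec.ofAlgHom ψ).mapSub W :=
  (Spec.ofAlgHom ψ).mem_mapSub_of_mem (fun i => ⟨x i, ValuationSubring.mem_top _⟩) h

namespace CurveData

variable (C : CurveData K) [IsAlgClosed L]

/-- Multiplication in coordinates as a bilinear map. -/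
def mulvLin {a b c : ℕ} (h : a + b ≤ c) :
    (C.Idx a → L) →ₗ[L] (C.Idx b → L) →ₗ[L] (C.Idx c → L) :=
  LinearMap.mk₂ L (C.mulv a b c)
    (fun x x' y => C.realF_injective L c (by
      simp only [map_add, mulv, C.realF_mul L a b c h, add_mul]))
    (fun t x y => C.realF_injective L c (by
      simp only [map_smul, mulv, C.realF_mul L a b c h, Algebra.smul_mul_assoc]))
    (fun x y y' => C.realF_injective L c (by
      simp only [map_add, mulv, C.realF_mul L a b c h, mul_add]))
    (fun t x y => C.realF_injective L c (by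
      simp only [map_smul, mulv, C.realF_mul L a b c h, Algebra.mul_smul_comm]))

@[simp] lemma mulvLin_apply {a b c : ℕ} (h : a + b ≤ c) (x : C.Idx a → L) (y : C.Idx b → L) :
    C.mulvLin h x y = C.mulv a b c x y := rfl

omit [IsAlgClosed L] in
/-- Products of images lie in the image. -/
lemma mulv_mem_mapSub [IsAlgClosed L'] (φ : Spec K L L') {a b c : ℕ} (h : a + b ≤ c)
    {Wa : Submodule L (C.Idx a → L)} {Wb : Submodule L (C.Idx b → L)}
    {Wc : Submodule L (C.Idx c → L)} (hW : ∀ x ∈ Wa, ∀ y ∈ Wb, C.mulv a b c x y ∈ Wc)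
    {x : C.Idx a → L'} {y : C.Idx b → L'} (hx : x ∈ φ.mapSub Wa) (hy : y ∈ φ.mapSub Wb) :
    C.mulv a b c x y ∈ φ.mapSub Wc := by
  have key : φ.mapSub Wa ≤ (φ.mapSub Wc).comap ((C.mulvLin h).flip y) := by
    refine φ.mapSub_le fun x₀ hx₀ => ?_
    show C.mulvLin h (fun i => φ.map (x₀ i)) y ∈ φ.mapSub Wc
    have key' : φ.mapSub Wb ≤
        (φ.mapSub Wc).comap (C.mulvLin h (fun i => φ.map (x₀ i))) := by
      refine φ.mapSub_le fun y₀ hy₀ => ?_
      obtain ⟨z, hz, hz'⟩ := φ.exists_mulVec (C.sc a b c) x₀ y₀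
      show C.mulv a b c _ _ ∈ φ.mapSub Wc
      rw [mulv, ← hz']
      refine φ.mem_mapSub_of_mem z ?_
      rw [hz]
      exact hW _ hx₀ _ hy₀
    exact key' hy
  exact key hx

end CurveData

end Fermat.Agent.Row27

end
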