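import Fermat.Agent.Row27.SpecTheory.Linear
import Fermat.Agent.Row27.ThetaBase

/-!
# Specialisation of places and effective divisors

The image of `L(b∞ - D)` is `L(b∞ - D')` for a unique effective `D'` of the same degree.
-/

set_option autoImplicit false

noncomputable section

open AlgebraicCurve Module
open Fermat.Agent.MWJ0

namespace Fermat.Agent.Row27

universe u

variable {K : Type u} [Field K] (C : CurveData K)

namespace CurveData

variable {L : Type u} [Field L] [Algebra K L] [IsAlgClosed L]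

lemma map_W {b : ℕ} {D : Divisor L (C.curve L)} (hD : 0 ≤ D) :
    (C.W L b D).map (C.realF L b) = riemannRochSpace (C.binf L (b : ℤ) - D) := by
  refine Submodule.map_comap_eq_of_le ?_
  rw [C.range_realF]
  exact C.Lsp_le_binf hD

lemma exists_single {D : Divisor L (C.curve L)} (hD : 0 ≤ D) (hd : Divisor.degree D = 1) :
    ∃ Q, D = Finsupp.single Q 1 := by
  have hne : D ≠ 0 := fun e => by rw [e, map_zero] at hd; exact zero_ne_one hd
  obtain ⟨Q, hQ⟩ := Finsupp.ne_iff.1 hne
  have hQ1 : 1 ≤ D Q := by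
    have := hD Q
    simp only [Finsupp.zero_apply] at this hQ
    omega
  refine ⟨Q, sub_eq_zero.1 ((C.rr L).eq_zero_of_nonneg_of_degree_le ?_ ?_)⟩
  · intro v
    rw [Finsupp.zero_apply, Finsupp.sub_apply]
    rcases eq_or_ne v Q with rfl | hv
    · rw [Finsupp.single_eq_same]; omega
    · rw [Finsupp.single_eq_of_ne hv, sub_zero]; exact hD v
  · rw [map_sub, hd, (C.rr L).degree_single, sub_self]

end CurveData

variable {L L' : Type u} [Field L] [Algebra K L] [IsAlgClosed L] [Field L'] [Algebra K L']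
  [IsAlgClosed L']

/-- `D'` is the specialisation of the effective divisor `D`. -/
def IsImg (φ : Spec K L L') (D : Divisor L (C.curve L)) (D' : Divisor L' (C.curve L')) : Prop :=
  0 ≤ D' ∧ Divisor.degree D' = Divisor.degree D ∧
    ∀ b : ℕ, 2 * (C.g : ℤ) + Divisor.degree D < b → φ.mapSub (C.W L b D) = C.W L' b D'

variable (φ : Spec K L L') {D E : Divisor L (C.curve L)} {D' E' : Divisor L' (C.curve L')}

lemma exists_image (hD : 0 ≤ D) {d : ℕ} (hd : Divisor.degree D = d) {b c : ℕ}
    (hb : 2 * C.g + d < b) (hc : b + 2 * C.g ≤ c) :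
    ∃ D' : Divisor L' (C.curve L'), 0 ≤ D' ∧ Divisor.degree D' = d ∧
      φ.mapSub (C.W L b D) = C.W L' b D' ∧ φ.mapSub (C.W L (b + c) D) = C.W L' (b + c) D' := by
  have hbc : C.binf L' (b : ℤ) + C.binf L' (c : ℤ) = C.binf L' ((b + c : ℕ) : ℤ) := by
    simp [CurveData.binf]
  have hrk : ∀ m : ℕ, 2 * C.g + d ≤ m →
      (finrank L' ((φ.mapSub (C.W L m D)).map (C.realF L' m)) : ℤ) = (m : ℤ) + 1 - C.g - d := by
    intro m hm
    rw [← (Submodule.equivMapOfInjective _ (C.realF_injective L' m) _).finrank_eq,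
      φ.finrank_mapSub, C.finrank_W hD hd hm]
    omega
  have hmul : (φ.mapSub (C.W L b D)).map (C.realF L' b) *
      riemannRochSpace (C.binf L' (c : ℤ)) ≤
        (φ.mapSub (C.W L (b + c) D)).map (C.realF L' (b + c)) := by
    refine Submodule.mul_le.2 ?_
    rintro _ ⟨x, hx, rfl⟩ g hg
    obtain ⟨y, rfl⟩ := C.exists_realF_eq hg
    refine ⟨C.mulv b c (b + c) x y,
      C.mulv_mem_mapSub φ le_rfl (Wb := ⊤) (fun x hx y _ => ?_) hx
        (by rw [φ.mapSub_top]; exact Submodule.mem_top),
      C.realF_mulv le_rfl x y⟩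
    have := C.mulv_mem_W rfl hx (show y ∈ C.W L c 0 by rw [C.W_zero]; exact Submodule.mem_top)
    rwa [add_zero] at this
  obtain ⟨D', hD', hd', h1, h2⟩ := (C.rr L').exists_divisor_of_mul_le
    (A := C.binf L' (b : ℤ)) (C := C.binf L' (c : ℤ)) (n := d)
    (W := (φ.mapSub (C.W L b D)).map (C.realF L' b))
    (W' := (φ.mapSub (C.W L (b + c) D)).map (C.realF L' (b + c)))
    (LinearMap.map_le_range.trans (C.range_realF L' b).le)
    (LinearMap.map_le_range.trans ((C.range_realF L' (b + c)).le.trans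
      (le_of_eq (by rw [hbc]; rfl))))
    hmul (by rw [C.rr_g, C.deg_binf]; omega) (by rw [C.rr_g, C.deg_binf, C.deg_binf]; omega)
    (by rw [hrk b hb.le, C.rr_g, C.deg_binf])
    (by rw [hrk (b + c) (by omega), C.rr_g, C.deg_binf, C.deg_binf]; omega)
  · refine ⟨D', hD', hd', ?_, ?_⟩
    · exact Submodule.map_injective_of_injective (C.realF_injective L' b)
        (h1.trans (C.map_W hD').symm)
    · exact Submodule.map_injective_of_injective (C.realF_injective L' (b + c))
        (h2.trans (by rw [hbc, C.map_W hD']))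

variable {C φ}

variable (C φ)

lemma exists_isImg (hD : 0 ≤ D) : ∃ D', IsImg C φ D D' := by
  obtain ⟨d, hd⟩ := Int.eq_ofNat_of_zero_le ((C.rr L).degree_nonneg hD)
  set b₀ := 2 * C.g + d + 1 with hb₀
  obtain ⟨D', hD', hd', h0, -⟩ := exists_image C φ hD hd (b := b₀) (c := b₀ + 2 * C.g)
    (by omega) le_rfl
  refine ⟨D', hD', hd'.trans hd.symm, fun b hb => ?_⟩
  obtain ⟨c, c₀, hc, hc₀, e⟩ : ∃ c c₀, b + 2 * C.g ≤ c ∧ b₀ + 2 * C.g ≤ c₀ ∧ b + c = b₀ + c₀ :=
    ⟨b + b₀ + 2 * C.g + b₀, b + b + 2 * C.g + b₀, by omega, by omega, by omega⟩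
  obtain ⟨D₁, hD₁, hd₁, h1, h1'⟩ := exists_image C φ hD hd (b := b) (c := c) (by omega) hc
  obtain ⟨D₂, hD₂, hd₂, h2, h2'⟩ := exists_image C φ hD hd (b := b₀) (c := c₀) (by omega) hc₀
  have e2 : D₂ = D' := C.W_injective hD₂ hD' (hd₂.trans hd'.symm) (by rw [hd₂]; omega)
    (h2.symm.trans h0)
  have e1 : D₁ = D₂ := C.W_injective hD₁ hD₂ (hd₁.trans hd₂.symm) (b := b + c)
    (by rw [hd₁]; omega) (by rw [← h1', e, h2'])
  rw [h1, e1, e2]

/-- The image of an effective divisor. -/
lemma isImg_zero : IsImg C φ 0 0 := by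
  refine ⟨le_rfl, by simp, fun b _ => ?_⟩
  rw [C.W_zero, C.W_zero, φ.mapSub_top]

variable {C φ}

lemma IsImg.add (h : IsImg C φ D D') (h' : IsImg C φ E E') (hD : 0 ≤ D) (hE : 0 ≤ E) :
    IsImg C φ (D + E) (D' + E') := by
  obtain ⟨F', hF⟩ := exists_isImg C φ (D := D + E) (add_nonneg hD hE)
  obtain ⟨d, hd⟩ := Int.eq_ofNat_of_zero_le ((C.rr L).degree_nonneg hD)
  obtain ⟨e, he⟩ := Int.eq_ofNat_of_zero_le ((C.rr L).degree_nonneg hE)
  set a := 2 * C.g + d + 1 with ha
  set b := 4 * C.g + e + 1 with hb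
  have h1 := h.2.2 a (by omega)
  have h2 := h'.2.2 b (by omega)
  have h3 := hF.2.2 (a + b) (by rw [map_add]; omega)
  have hd1 := h.2.1
  have he1 := h'.2.1
  have hnn : 0 ≤ D' + E' := add_nonneg h.1 h'.1
  have hdeg : Divisor.degree (D' + E') = Divisor.degree (D + E) := by rw [map_add, map_add, hd1, he1]
  have hspan : riemannRochSpace (C.binf L' (a : ℤ) - D') *
      riemannRochSpace (C.binf L' (b : ℤ) - E') =
        riemannRochSpace (C.binf L' ((a + b : ℕ) : ℤ) - (D' + E')) := by
    rw [(C.rr L').mul_span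
      (by rw [C.rr_g, map_sub, C.deg_binf]; omega)
      (by rw [C.rr_g, map_sub, map_sub, C.deg_binf, C.deg_binf]; omega)]
    congr 1
    simp only [CurveData.binf, Nat.cast_add, Finsupp.single_add]
    abel
  have hle : (C.W L' (a + b) (D' + E')).map (C.realF L' (a + b)) ≤
      (C.W L' (a + b) F').map (C.realF L' (a + b)) := by
    rw [C.map_W hnn, ← hspan, ← C.map_W h.1, ← C.map_W h'.1, Submodule.mul_le]
    rintro _ ⟨x, hx, rfl⟩ _ ⟨y, hy, rfl⟩
    rw [← h1] at hx
    rw [← h2] at hy
    refine ⟨C.mulv a b (a + b) x y, ?_, C.realF_mulv le_rfl x y⟩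
    rw [← h3]
    exact C.mulv_mem_mapSub φ le_rfl (fun x hx y hy => C.mulv_mem_W rfl hx hy) hx hy
  have hWeq : C.W L' (a + b) (D' + E') = C.W L' (a + b) F' := by
    refine Submodule.eq_of_le_of_finrank_eq
      ((Submodule.map_le_map_iff_of_injective (C.realF_injective L' _) _ _).1 hle) ?_
    rw [C.finrank_W hnn (m := d + e) (by rw [hdeg, map_add]; omega) (by omega),
      C.finrank_W hF.1 (m := d + e) (by rw [hF.2.1, map_add]; omega) (by omega)]
  have e0 : D' + E' = F' := C.W_injective hnn hF.1 (hdeg.trans hF.2.1.symm)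
    (by rw [hdeg, map_add]; omega) hWeq
  rwa [e0]

variable (C φ)

lemma exists_place (P : Place L (C.curve L)) :
    ∃ Q, IsImg C φ (Finsupp.single P 1) (Finsupp.single Q 1) := by
  obtain ⟨D', h⟩ := exists_isImg C φ (D := Finsupp.single P (1 : ℤ))
    (Finsupp.single_nonneg.2 zero_le_one)
  obtain ⟨Q, rfl⟩ := C.exists_single h.1 (h.2.1.trans ((C.rr L).degree_single P 1))
  exact ⟨Q, h⟩

/-- The specialisation of a place. -/
def specPlace (P : Place L (C.curve L)) : Place L' (C.curve L') := (exists_place C φ P).choose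

lemma isImg_specPlace (P : Place L (C.curve L)) :
    IsImg C φ (Finsupp.single P 1) (Finsupp.single (specPlace C φ P) 1) :=
  (exists_place C φ P).choose_spec

lemma isImg_mapDomain (hD : 0 ≤ D) : IsImg C φ D (Finsupp.mapDomain (specPlace C φ) D) := by
  obtain ⟨n, hn⟩ := Int.eq_ofNat_of_zero_le ((C.rr L).degree_nonneg hD)
  induction n generalizing D with
  | zero =>
    rw [(C.rr L).eq_zero_of_nonneg_of_degree_le hD hn.le, Finsupp.mapDomain_zero]
    exact isImg_zero C φ
  | succ n ih =>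
    have hne : D ≠ 0 := fun e => by rw [e, map_zero] at hn; omega
    obtain ⟨P, hP⟩ := Finsupp.ne_iff.1 hne
    have hDP := hD P
    simp only [Finsupp.zero_apply] at hP hDP
    have h0 : 0 ≤ D - Finsupp.single P 1 := by
      intro v
      rw [Finsupp.zero_apply, Finsupp.sub_apply]
      rcases eq_or_ne v P with rfl | hv
      · rw [Finsupp.single_eq_same]; omega
      · rw [Finsupp.single_eq_of_ne hv, sub_zero]; exact hD v
    have h1 := ih h0 (by rw [map_sub, (C.rr L).degree_single, hn]; omega)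
    have := h1.add (isImg_specPlace C φ P) h0 (Finsupp.single_nonneg.2 zero_le_one)
    rwa [← Finsupp.mapDomain_single (f := specPlace C φ), ← Finsupp.mapDomain_add,
      sub_add_cancel] at this

lemma mapSub_W_eq (hD : 0 ≤ D) {b : ℕ} (hb : 2 * (C.g : ℤ) + Divisor.degree D < b) :
    φ.mapSub (C.W L b D) = C.W L' b (Finsupp.mapDomain (specPlace C φ) D) :=
  (isImg_mapDomain C φ hD).2.2 b hb

/-- The place is determined by one space of large level. -/
lemma specPlace_eq {P : Place L (C.curve L)} {Q : Place L' (C.curve L')} {b : ℕ}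
    (hb : 2 * C.g + 1 < b)
    (h : φ.mapSub (C.W L b (Finsupp.single P 1)) = C.W L' b (Finsupp.single Q 1)) :
    specPlace C φ P = Q := by
  have hi := isImg_specPlace C φ P
  have hb' : 2 * (C.g : ℤ) + Divisor.degree (Finsupp.single P (1 : ℤ)) < b := by
    rw [(C.rr L).degree_single]; omega
  refine Finsupp.single_left_injective one_ne_zero (C.W_injective hi.1
    (Finsupp.single_nonneg.2 zero_le_one) ?_ ?_ ((hi.2.2 b hb').symm.trans h))
  · rw [(C.rr L').degree_single, (C.rr L').degree_single]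
  · rw [(C.rr L').degree_single]; omega

lemma finrank_W_single {M : Type u} [Field M] [Algebra K M] [IsAlgClosed M]
    (P : Place M (C.curve M)) {b : ℕ} (hb : 2 * C.g + 1 ≤ b) :
    finrank M (C.W M b (Finsupp.single P 1)) = b + 1 - C.g - 1 :=
  C.finrank_W (Finsupp.single_nonneg.2 zero_le_one) ((C.rr M).degree_single P 1) hb

lemma specPlace_inf : specPlace C φ (C.inf L) = C.inf L' := by
  set b := 2 * C.g + 2 with hb
  refine specPlace_eq C φ (b := b) (by omega) (φ.eq_of_ge_mapSub ?_ ?_)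
  · intro x' hx'
    set m := 2 * C.g + 1 with hm
    have e : ∀ {M : Type u} [Field M] [Algebra K M] [IsAlgClosed M],
        C.binf M (b : ℤ) - Finsupp.single (C.inf M) 1 = C.binf M (m : ℤ) := by
      intro M _ _ _
      rw [CurveData.binf, CurveData.binf, ← Finsupp.single_sub]
      congr 1
      omega
    rw [CurveData.mem_W, e] at hx'
    obtain ⟨z, hz⟩ := C.exists_realF_eq hx'
    have hx : C.mulv m 0 b z (fun i => algebraMap K L' (C.one 0 i)) = x' :=
      C.realF_injective L' b (by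
        rw [C.realF_mulv (by omega), C.realF_one, mul_one, hz])
    obtain ⟨o, ho, ho'⟩ := φ.exists_const (C.one 0)
    rw [← hx, ← ho']
    refine C.mulv_mem_mapSub φ (by omega) (Wa := ⊤)
      (Wb := Submodule.span L {fun i => (o i : L)}) (fun u _ y hy => ?_)
      (by rw [φ.mapSub_top]; exact Submodule.mem_top)
      (φ.mem_mapSub_of_mem o (Submodule.mem_span_singleton_self _))
    obtain ⟨t, rfl⟩ := Submodule.mem_span_singleton.1 hy
    rw [CurveData.mem_W, C.realF_mulv (by omega), map_smul, ho, C.realF_one, e,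
      Algebra.mul_smul_comm, mul_one, ← map_smul]
    exact C.realF_mem m _
  · rw [finrank_W_single C (C.inf L') (by omega), finrank_W_single C (C.inf L) (by omega)]

lemma specPlace_pt (i : ℕ) : specPlace C φ (C.pt L i) = C.pt L' i := by
  refine specPlace_eq C φ (b := 2 * C.g + 2) (by omega) (φ.eq_of_le_mapSub ?_ ?_)
  · refine φ.mapSub_le fun x hx => (C.evAt_eq_zero_iff i _).1 ?_
    have h := (C.evAt_eq_zero_iff i (fun j => (x j : L))).2 hx
    have e : (∑ j, x j * ⟨algebraMap K L (C.ev i _ j), φ.trivOn _⟩ : φ.dom) = 0 :=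
      Subtype.ext (by rw [CurveData.evAt] at h; simpa using h)
    have e' := congrArg φ.map e
    simpa [CurveData.evAt, map_sum, φ.map_algebraMap] using e'
  · rw [finrank_W_single C (C.pt L' i) (by omega), finrank_W_single C (C.pt L i) (by omega)]

end Fermat.Agent.Row27

end
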